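/-
helper42: the weak Ramanujan bound by the maximum principle (Mathlib + Prelude `heckeT` only).

For a nonzero weight-2 cusp form `f` on an arithmetic subgroup and `q ≥ 2`, if
`T_q f = a • f` (Prelude `ModularForm.heckeT 2 q`) then `‖a‖ < q + 1`.

Proof: `g τ = ‖f τ‖ * im τ` is invariant, continuous and zero at all cusps, hence attains its
maximum `S > 0` at some `τ₀`.  `‖a‖ g τ ≤ ∑_j g ((τ+j)/q) + g (q τ) ≤ q S + g (q τ)`; so if
`q + 1 ≤ ‖a‖` then `q τ₀` is again a maximum point, and so is `q^m τ₀` for all `m`; but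
`g (q^m τ₀) → 0`.
-/
import Mathlib
import Fermat.Prelude.Def_CuspForm_HeckeAlgebra

set_option autoImplicit false
set_option linter.unusedSectionVars false

open Filter Topology UpperHalfPlane Matrix.SpecialLinearGroup
open scoped Modular MatrixGroups ModularForm

namespace Fermat.Agent.MF.H42

/-! ## Attaining the maximum -/

/-- A continuous `SL(2,ℤ)`-invariant real function on `ℍ` which tends to `0` at `i∞`
attains its maximum. -/
theorem exists_forall_le_of_invariant {f : ℍ → ℝ} (hf_cont : Continuous f)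
    (hf_nonneg : ∀ τ, 0 ≤ f τ)
    (hf_infinity : Tendsto f atImInfty (𝓝 0))
    (hf_inv : ∀ (g : SL(2, ℤ)) τ, f (g • τ) = f τ) :
    ∃ τ₀, ∀ τ, f τ ≤ f τ₀ := by
  by_cases h0 : ∀ τ, f τ ≤ 0
  · exact ⟨UpperHalfPlane.I, fun τ => (h0 τ).trans (hf_nonneg _)⟩
  push Not at h0
  obtain ⟨τ₁, hτ₁⟩ := h0
  -- a height above which `f < f τ₁`
  have hev : ∀ᶠ τ in atImInfty, f τ < f τ₁ := hf_infinity.eventually (gt_mem_nhds hτ₁)
  rw [atImInfty, eventually_comap, eventually_atTop] at hev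
  obtain ⟨Y, hY⟩ := hev
  -- move `τ₁` into the fundamental domain
  obtain ⟨g₁, hg₁⟩ := ModularGroup.exists_smul_mem_fd τ₁
  have hσ₁ : (g₁ • τ₁) ∈ ModularGroup.truncatedFundamentalDomain Y := by
    refine ⟨hg₁, ?_⟩
    by_contra hcon
    push Not at hcon
    have := hY _ hcon.le (g₁ • τ₁) rfl
    rw [hf_inv] at this
    exact lt_irrefl _ this
  obtain ⟨τ₀, hτ₀mem, hτ₀⟩ := (ModularGroup.isCompact_truncatedFundamentalDomain Y).exists_isMaxOn
    ⟨_, hσ₁⟩ hf_cont.continuousOn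
  refine ⟨τ₀, fun τ => ?_⟩
  obtain ⟨g, hg⟩ := ModularGroup.exists_smul_mem_fd τ
  rw [← hf_inv g τ]
  by_cases hle : (g • τ).im ≤ Y
  · exact hτ₀ ⟨hg, hle⟩
  · push Not at hle
    have h1 := hY _ hle.le (g • τ) rfl
    have h2 : f τ₁ ≤ f τ₀ := by
      have : f (g₁ • τ₁) ≤ f τ₀ := hτ₀ hσ₁
      rwa [hf_inv] at this
    exact (h1.le).trans h2

/-- A continuous nonnegative real function on `ℍ`, invariant under a finite-index subgroup of
`SL(2,ℤ)` and tending to `0` at every cusp, attains its maximum. -/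
theorem exists_forall_le_of_subgroup_invariant {f : ℍ → ℝ} (hf_cont : Continuous f)
    (hf_nonneg : ∀ τ, 0 ≤ f τ)
    (hf_infinity : ∀ g : SL(2, ℤ), Tendsto (fun τ => f (g • τ)) atImInfty (𝓝 0))
    {Γ : Subgroup SL(2, ℤ)} [Γ.FiniteIndex] (hf_inv : ∀ g ∈ Γ, ∀ τ, f (g • τ) = f τ) :
    ∃ τ₀, ∀ τ, f τ ≤ f τ₀ := by
  -- the function on the quotient, as in Mathlib's `exists_bound_of_subgroup_invariant_of_isBigO`
  let f' τ : SL(2, ℤ) ⧸ Γ → ℝ := Quotient.lift (fun g ↦ f (g⁻¹ • τ)) fun g h hgh ↦ by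
    obtain ⟨j, hj, hj'⟩ : ∃ j ∈ Γ, h = g * j := by
      rw [← Quotient.eq_iff_equiv, Quotient.eq, QuotientGroup.leftRel_apply] at hgh
      exact ⟨g⁻¹ * h, hgh, (mul_inv_cancel_left g h).symm⟩
    simp [-ModularGroup.sl_moeb, hj', mul_smul, hf_inv j⁻¹ (inv_mem hj)]
  have hf'_cont γ : Continuous (f' · γ) := QuotientGroup.induction_on γ fun g ↦ by
    simp only [ModularGroup.sl_moeb, f']
    fun_prop
  have hf'_inv τ (g : SL(2, ℤ)) γ : f' (g • τ) (g • γ) = f' τ γ := by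
    induction γ using QuotientGroup.induction_on
    simp [-ModularGroup.sl_moeb, f', mul_smul]
  have hf'_infty γ : Tendsto (f' · γ) atImInfty (𝓝 0) := γ.induction_on fun h ↦ hf_infinity h⁻¹
  have hf'_nonneg τ γ : 0 ≤ f' τ γ := by
    induction γ using QuotientGroup.induction_on
    exact hf_nonneg _
  have : Fintype (SL(2, ℤ) ⧸ Γ) := Subgroup.fintypeQuotientOfFiniteIndex
  -- the maximum over the quotient
  let F : ℍ → ℝ := fun τ => Finset.univ.sup' Finset.univ_nonempty (f' τ)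
  have hF_cont : Continuous F := by
    exact Continuous.finset_sup'_apply (s := (Finset.univ : Finset (SL(2, ℤ) ⧸ Γ)))
      Finset.univ_nonempty (f := fun γ τ => f' τ γ) (fun γ _ => hf'_cont γ)
  have hF_nonneg τ : 0 ≤ F τ := (hf'_nonneg τ ⟦1⟧).trans (Finset.le_sup' (f' τ) (Finset.mem_univ _))
  have hF_inv (g : SL(2, ℤ)) τ : F (g • τ) = F τ := by
    apply le_antisymm
    · apply Finset.sup'_le
      intro γ _
      have := hf'_inv τ g (g⁻¹ • γ)
      rw [smul_inv_smul] at this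
      rw [this]
      exact Finset.le_sup' (f' τ) (Finset.mem_univ _)
    · apply Finset.sup'_le
      intro γ _
      rw [← hf'_inv τ g γ]
      exact Finset.le_sup' (f' (g • τ)) (Finset.mem_univ _)
  have hF_infty : Tendsto F atImInfty (𝓝 0) := by
    have := Filter.Tendsto.finset_sup'_nhds_apply (s := (Finset.univ : Finset (SL(2, ℤ) ⧸ Γ)))
      Finset.univ_nonempty (f := fun γ τ => f' τ γ) (g := fun _ => (0 : ℝ))
      (fun γ _ => hf'_infty γ)
    simpa only [Finset.sup'_const] using this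
  obtain ⟨τ₀, hτ₀⟩ := exists_forall_le_of_invariant hF_cont hF_nonneg hF_infty hF_inv
  obtain ⟨γ₀, -, hγ₀⟩ := Finset.exists_mem_eq_sup' Finset.univ_nonempty (f' τ₀)
  induction γ₀ using QuotientGroup.induction_on with
  | H g₀ =>
    refine ⟨g₀⁻¹ • τ₀, fun τ => ?_⟩
    have h1 : f τ = f' τ ⟦1⟧ := by simp [f']
    have h2 : f' τ₀ (QuotientGroup.mk g₀) = f (g₀⁻¹ • τ₀) := rfl
    calc f τ = f' τ ⟦1⟧ := h1
      _ ≤ F τ := Finset.le_sup' (f' τ) (Finset.mem_univ _)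
      _ ≤ F τ₀ := hτ₀ τ
      _ = f' τ₀ (QuotientGroup.mk g₀) := hγ₀
      _ = f (g₀⁻¹ • τ₀) := h2

/-! ## The weight-two norm function -/

/-- `‖f τ‖ · im τ`, the invariant norm of a weight-two form. -/
noncomputable def gfun (f : ℍ → ℂ) (τ : ℍ) : ℝ := ‖f τ‖ * τ.im

theorem gfun_nonneg (f : ℍ → ℂ) (τ : ℍ) : 0 ≤ gfun f τ :=
  mul_nonneg (norm_nonneg _) τ.im_pos.le

theorem gfun_sq (f : ℍ → ℂ) (τ : ℍ) : gfun f τ ^ 2 = ‖petersson 2 f f τ‖ := by
  simp only [gfun, petersson, norm_mul, Complex.norm_conj, norm_zpow, Complex.norm_real,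
    Real.norm_of_nonneg τ.im_pos.le]
  norm_cast
  ring

theorem gfun_eq_sqrt (f : ℍ → ℂ) (τ : ℍ) : gfun f τ = Real.sqrt ‖petersson 2 f f τ‖ := by
  rw [← gfun_sq, Real.sqrt_sq (gfun_nonneg f τ)]

theorem continuous_gfun {f : ℍ → ℂ} (hf : Continuous f) : Continuous (gfun f) :=
  hf.norm.mul UpperHalfPlane.continuous_im

theorem im_heckeMatrix_smul {q : ℕ} (hq : q ≠ 0) (j : ℕ) (τ : ℍ) :
    (ModularForm.heckeMatrix q j • τ).im = τ.im / q := by
  have h := congrArg Complex.im (ModularForm.coe_heckeMatrix_smul hq j τ)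
  rw [UpperHalfPlane.coe_im] at h
  rw [h]
  have : (((τ : ℂ) + j) / q) = (((τ : ℂ) + j) / ((q : ℝ) : ℂ)) := by push_cast; rfl
  rw [this, Complex.div_ofReal_im]
  simp

theorem im_heckeDiagMatrix_smul {q : ℕ} (hq : q ≠ 0) (τ : ℍ) :
    (ModularForm.heckeDiagMatrix q • τ).im = q * τ.im := by
  have h := congrArg Complex.im (ModularForm.coe_heckeDiagMatrix_smul hq τ)
  rw [UpperHalfPlane.coe_im] at h
  rw [h]
  have : ((q : ℂ) * (τ : ℂ)) = (((q : ℝ) : ℂ) * (τ : ℂ)) := by push_cast; rfl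
  rw [this, Complex.im_ofReal_mul, UpperHalfPlane.coe_im]

/-- The Hecke inequality for `gfun`. -/
theorem norm_mul_gfun_le {F : ℍ → ℂ} {q : ℕ} (hq : q ≠ 0) (a : ℂ)
    (h : ModularForm.heckeT 2 q F = a • F) (τ : ℍ) :
    ‖a‖ * gfun F τ ≤ (∑ j ∈ Finset.range q, gfun F (ModularForm.heckeMatrix q j • τ))
      + gfun F (ModularForm.heckeDiagMatrix q • τ) := by
  have hq0 : (0 : ℝ) < q := by exact_mod_cast Nat.pos_of_ne_zero hq
  have h1 := congrFun h τ
  rw [ModularForm.heckeT_apply 2 hq] at h1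
  simp only [Pi.smul_apply, smul_eq_mul] at h1
  have h2 : ‖a‖ * ‖F τ‖ ≤ (q : ℝ)⁻¹ * ∑ j ∈ Finset.range q, ‖F (ModularForm.heckeMatrix q j • τ)‖
      + q * ‖F (ModularForm.heckeDiagMatrix q • τ)‖ := by
    rw [← norm_mul, ← h1]
    refine (norm_add_le _ _).trans ?_
    gcongr
    · rw [norm_mul, norm_inv, Complex.norm_natCast]
      gcongr
      exact norm_sum_le _ _
    · rw [norm_mul]
      simp
  calc ‖a‖ * gfun F τ = (‖a‖ * ‖F τ‖) * τ.im := by simp only [gfun]; ring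
    _ ≤ ((q : ℝ)⁻¹ * ∑ j ∈ Finset.range q, ‖F (ModularForm.heckeMatrix q j • τ)‖
      + q * ‖F (ModularForm.heckeDiagMatrix q • τ)‖) * τ.im :=
        mul_le_mul_of_nonneg_right h2 τ.im_pos.le
    _ = (∑ j ∈ Finset.range q, gfun F (ModularForm.heckeMatrix q j • τ))
      + gfun F (ModularForm.heckeDiagMatrix q • τ) := by
        simp only [gfun, im_heckeMatrix_smul hq, im_heckeDiagMatrix_smul hq]
        rw [add_mul, Finset.mul_sum, Finset.sum_mul]
        congr 1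
        · apply Finset.sum_congr rfl
          intro j _
          field_simp
        · ring

/-! ## Cusp forms -/

section Cusp

variable {Γ : Subgroup (GL (Fin 2) ℝ)} [Γ.IsArithmetic]

theorem gfun_smul_of_mem (f : CuspForm Γ 2) {g : GL (Fin 2) ℝ} (hg : g ∈ Γ) (τ : ℍ) :
    gfun f (g • τ) = gfun f τ := by
  rw [gfun_eq_sqrt, gfun_eq_sqrt, SlashInvariantFormClass.norm_petersson_smul hg]

open ConjAct Pointwise in
theorem tendsto_gfun_smul (f : CuspForm Γ 2) (g : SL(2, ℤ)) :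
    Tendsto (fun τ => gfun f (g • τ)) atImInfty (𝓝 0) := by
  have : ((toConjAct (g : GL (Fin 2) ℝ)⁻¹) • Γ).IsArithmetic := by
    simpa [(show Rat.castHom ℝ = algebraMap ℚ ℝ by rfl), map_inv, map_mapGL]
      using! Subgroup.IsArithmetic.conj Γ (mapGL ℚ g)⁻¹
  have h0 : IsZeroAtImInfty (petersson 2 (⇑f ∣[(2 : ℤ)] g) (⇑f ∣[(2 : ℤ)] g)) :=
    (CuspFormClass.zero_at_infty <| CuspForm.translate f g).petersson_isZeroAtImInfty_left 2 _
      (ModularForm.translate f g)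
  rw [IsZeroAtImInfty, ZeroAtFilter] at h0
  have h1 : Tendsto (fun τ => Real.sqrt ‖petersson 2 (⇑f ∣[(2 : ℤ)] g) (⇑f ∣[(2 : ℤ)] g) τ‖)
      atImInfty (𝓝 0) := by
    have := (Real.continuous_sqrt.tendsto 0).comp (tendsto_zero_iff_norm_tendsto_zero.mp h0)
    rw [Real.sqrt_zero] at this
    exact this
  refine h1.congr fun τ => ?_
  rw [gfun_eq_sqrt, UpperHalfPlane.petersson_slash_SL]

theorem tendsto_gfun (f : CuspForm Γ 2) : Tendsto (gfun f) atImInfty (𝓝 0) := by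
  simpa using tendsto_gfun_smul f 1

/-- `gfun f` attains its maximum. -/
theorem exists_forall_gfun_le (f : CuspForm Γ 2) : ∃ τ₀, ∀ τ, gfun f τ ≤ gfun f τ₀ :=
  exists_forall_le_of_subgroup_invariant (Γ := Γ.comap (mapGL ℝ))
    (continuous_gfun (CuspFormClass.holo f).continuous) (gfun_nonneg f) (tendsto_gfun_smul f)
    (fun _ hg τ => gfun_smul_of_mem f hg τ)

/-- **Weak Ramanujan bound.**  A nonzero weight-two cusp form with `T_q f = a f`, `q ≥ 2`,
has `‖a‖ < q + 1`. -/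
theorem norm_lt_of_heckeT_eq_smul (f : CuspForm Γ 2) (hf : f ≠ 0) {q : ℕ} (hq : 2 ≤ q) (a : ℂ)
    (h : ModularForm.heckeT 2 q ⇑f = a • ⇑f) : ‖a‖ < q + 1 := by
  have hq0 : q ≠ 0 := by omega
  by_contra hcon
  push Not at hcon
  obtain ⟨τ₀, hτ₀⟩ := exists_forall_gfun_le f
  set S := gfun f τ₀ with hS
  -- `S > 0`
  have hSpos : 0 < S := by
    obtain ⟨τ₁, hτ₁⟩ : ∃ τ, f τ ≠ 0 := by
      by_contra hall
      push Not at hall
      exact hf (DFunLike.ext _ _ (by simpa using hall))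
    have : 0 < gfun f τ₁ := mul_pos (norm_pos_iff.mpr hτ₁) τ₁.im_pos
    exact this.trans_le (hτ₀ τ₁)
  -- maximum points are stable under `τ ↦ q τ`
  have hstep : ∀ τ, gfun f τ = S → gfun f (ModularForm.heckeDiagMatrix q • τ) = S := by
    intro τ hτ
    have h1 := norm_mul_gfun_le hq0 a h τ
    have h2 : (∑ j ∈ Finset.range q, gfun f (ModularForm.heckeMatrix q j • τ)) ≤ q * S := by
      calc (∑ j ∈ Finset.range q, gfun f (ModularForm.heckeMatrix q j • τ))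
          ≤ ∑ _j ∈ Finset.range q, S := Finset.sum_le_sum fun j _ => hτ₀ _
        _ = q * S := by simp
    have h3 : ((q : ℝ) + 1) * S ≤ ‖a‖ * gfun f τ := by
      rw [hτ]; exact mul_le_mul_of_nonneg_right hcon hSpos.le
    apply le_antisymm (hτ₀ _)
    linarith
  have hiter : ∀ m : ℕ, ∃ τ : ℍ, τ.im = (q : ℝ) ^ m * τ₀.im ∧ gfun f τ = S := by
    intro m
    induction m with
    | zero => exact ⟨τ₀, by simp, rfl⟩
    | succ m ih =>
      obtain ⟨τ, him, hτ⟩ := ih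
      refine ⟨ModularForm.heckeDiagMatrix q • τ, ?_, hstep τ hτ⟩
      rw [im_heckeDiagMatrix_smul hq0, him, pow_succ]
      ring
  -- but `gfun f` tends to zero at `i∞`
  have hev : ∀ᶠ τ in atImInfty, gfun f τ < S := (tendsto_gfun f).eventually (gt_mem_nhds hSpos)
  rw [atImInfty, eventually_comap, eventually_atTop] at hev
  obtain ⟨Y, hY⟩ := hev
  have hq1 : (1 : ℝ) < q := by exact_mod_cast hq
  obtain ⟨m, hm⟩ : ∃ m : ℕ, Y / τ₀.im < (q : ℝ) ^ m := pow_unbounded_of_one_lt _ hq1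
  obtain ⟨τ, him, hτ⟩ := hiter m
  have hle : Y ≤ τ.im := by
    rw [him]
    have := (div_lt_iff₀ τ₀.im_pos).mp hm
    exact this.le
  exact lt_irrefl S (by simpa [hτ] using hY _ hle τ rfl)

end Cusp

/-! ## Consumer shapes for `Γ₀(N)` -/

section Gamma0

variable {N : ℕ} [NeZero N]

/-- Weak Ramanujan bound for the Prelude's `CuspForm.heckeTLin`. -/
theorem norm_lt_of_heckeTLin_eq_smul {ℓ : ℕ} (hℓ : ℓ.Prime) (hℓN : ¬ ℓ ∣ N)
    (f : CuspForm (CongruenceSubgroup.Gamma0 N) 2) (hf : f ≠ 0) (a : ℂ)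
    (h : CuspForm.heckeTLin 2 hℓ hℓN f = a • f) : ‖a‖ < ℓ + 1 := by
  refine norm_lt_of_heckeT_eq_smul f hf hℓ.two_le a ?_
  have := congrArg (fun g : CuspForm (CongruenceSubgroup.Gamma0 N) 2 => (⇑g : ℍ → ℂ)) h
  simpa using this

/-- An eigenvalue of `T_ℓ` on weight-two cusp forms is not `± (ℓ + 1)`. -/
theorem ne_of_heckeTLin_eq_smul {ℓ : ℕ} (hℓ : ℓ.Prime) (hℓN : ¬ ℓ ∣ N)
    (f : CuspForm (CongruenceSubgroup.Gamma0 N) 2) (hf : f ≠ 0) (a : ℂ)
    (h : CuspForm.heckeTLin 2 hℓ hℓN f = a • f) :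
    a ≠ (ℓ : ℂ) + 1 ∧ a ≠ -((ℓ : ℂ) + 1) := by
  have hlt := norm_lt_of_heckeTLin_eq_smul hℓ hℓN f hf a h
  have hn : ‖((ℓ : ℂ) + 1)‖ = (ℓ : ℝ) + 1 := by
    have : ((ℓ : ℂ) + 1) = (((ℓ + 1 : ℕ) : ℝ) : ℂ) := by push_cast; ring
    rw [this, Complex.norm_real, Real.norm_of_nonneg (by positivity)]
    push_cast; ring
  constructor
  · rintro rfl
    rw [hn] at hlt
    exact lt_irrefl _ hlt
  · rintro rfl
    rw [norm_neg, hn] at hlt
    exact lt_irrefl _ hlt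

/-- For a system of eigenvalues `χ` of the Hecke algebra with a common nonzero eigenvector,
`χ (T_ℓ)` is not `± (ℓ + 1)`; equivalently `± 1`, `± ℓ` are not roots of
`X² - χ(T_ℓ) X + ℓ`. -/
theorem eigenvalue_ne_of_eigenvector {S : Set ℕ} (χ : CuspForm.heckeAlgebra N 2 S →+* ℂ)
    (f : CuspForm (CongruenceSubgroup.Gamma0 N) 2) (hf : f ≠ 0)
    (hχ : ∀ t : CuspForm.heckeAlgebra N 2 S,
      (t : Module.End ℂ (CuspForm (CongruenceSubgroup.Gamma0 N) 2)) f = χ t • f)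
    {ℓ : ℕ} (hℓ : ℓ.Prime) (hℓN : ¬ ℓ ∣ N) (hℓS : ℓ ∉ S) :
    ‖χ (CuspForm.heckeAlgebra.T hℓ hℓN hℓS)‖ < ℓ + 1 ∧
    χ (CuspForm.heckeAlgebra.T hℓ hℓN hℓS) ≠ (ℓ : ℂ) + 1 ∧
    χ (CuspForm.heckeAlgebra.T hℓ hℓN hℓS) ≠ -((ℓ : ℂ) + 1) := by
  have h := hχ (CuspForm.heckeAlgebra.T hℓ hℓN hℓS)
  rw [CuspForm.heckeAlgebra.coe_T] at h
  exact ⟨norm_lt_of_heckeTLin_eq_smul hℓ hℓN f hf _ h, ne_of_heckeTLin_eq_smul hℓ hℓN f hf _ h⟩

end Gamma0

end Fermat.Agent.MF.H42
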